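/-
GATE-J / J2-EIS (helper63): the ratio `h_χ = E_{k,χ} / E_{k,1}` as an element of T24's field
`Mer = Frac(Hol)` of meromorphic functions on `ℍ`, with its transformation law under `Γ₀(N)`,
its translates `compM g h_χ` at all cusps as quotients of `N`-periodic bounded holomorphic
functions, and the modular forms `E_{k,χ}^p`, `E_{k,1}` on `Γ₀(N)`.
Built on helper94's `GJ/J2/TwistedEisChar.lean` and helper82's `S24_helper82/HolOrd.lean`.
-/
import Fermat.Agent.GJ.J2.TwistedEisChar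
import Fermat.Agent.S24_helper82.HolOrd
import Fermat.Agent.S23.Defs

set_option autoImplicit false

open Complex UpperHalfPlane Set Filter Topology Matrix ModularForm EisensteinSeries
  CongruenceSubgroup ModularGroup
open scoped MatrixGroups Manifold

namespace Fermat.Agent.GJ.EisChar

open Fermat.Agent.GJ.TwEis Fermat.Agent.S24_helper82

noncomputable section

variable {N : ℕ}

/-- admissible characters: unitary and trivial on parabolic elements -/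
structure IsAdm (χ : ↥(Gamma0 N) →* ℂˣ) : Prop where
  par : IsParabolicChar χ
  unit : ∀ γ, ‖((χ γ : ℂˣ) : ℂ)‖ = 1

lemma isAdm_one : IsAdm (1 : ↥(Gamma0 N) →* ℂˣ) where
  par := fun _ _ => rfl
  unit := fun _ => by simp

lemma IsAdm.mul {χ ψ : ↥(Gamma0 N) →* ℂˣ} (hχ : IsAdm χ) (hψ : IsAdm ψ) : IsAdm (χ * ψ) where
  par := fun γ hγ => by
    rw [MonoidHom.mul_apply, hχ.par γ hγ, hψ.par γ hγ, one_mul]
  unit := fun γ => by
    rw [MonoidHom.mul_apply, Units.val_mul, norm_mul, hχ.unit, hψ.unit, one_mul]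

variable {χ : ↥(Gamma0 N) →* ℂˣ}

/-- the translate `E_{k,χ} ∣[k] g` as a holomorphic function -/
def slashHol (hχ : IsAdm χ) {k : ℤ} (hk : 3 ≤ k) (g : SL(2, ℤ)) : Hol :=
  ⟨Echi χ k ∣[k] g, mdifferentiable_Echi_slash hχ.unit hk g⟩

/-- `E_{k,χ}` as a holomorphic function -/
def echiHol (hχ : IsAdm χ) {k : ℤ} (hk : 3 ≤ k) : Hol :=
  ⟨Echi χ k, mdifferentiable_Echi hχ.unit hk⟩

@[simp] lemma coe_echiHol (hχ : IsAdm χ) {k : ℤ} (hk : 3 ≤ k) :
    ((echiHol hχ hk : Hol) : ℍ → ℂ) = Echi χ k := rfl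

@[simp] lemma coe_slashHol (hχ : IsAdm χ) {k : ℤ} (hk : 3 ≤ k) (g : SL(2, ℤ)) :
    ((slashHol hχ hk g : Hol) : ℍ → ℂ) = Echi χ k ∣[k] g := rfl

lemma echiHol_ne_zero (hχ : IsAdm χ) {k : ℤ} (hk : 3 ≤ k) (hk2 : Even k) :
    echiHol hχ hk ≠ 0 := by
  intro h
  apply Echi_ne_zero hχ.par hχ.unit hk hk2
  have := congrArg (fun f : Hol => (f : ℍ → ℂ)) h
  simpa using this

lemma slashHol_ne_zero (hχ : IsAdm χ) {k : ℤ} (hk : 3 ≤ k) (hk2 : Even k) (g : SL(2, ℤ)) :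
    slashHol hχ hk g ≠ 0 := by
  intro h
  apply Echi_ne_zero hχ.par hχ.unit hk hk2
  have h1 : Echi χ k ∣[k] g = 0 := by
    have := congrArg (fun f : Hol => (f : ℍ → ℂ)) h
    simpa using this
  have h2 : (Echi χ k ∣[k] g) ∣[k] g⁻¹ = 0 := by rw [h1]; exact SlashAction.zero_slash _ _
  rwa [← SlashAction.slash_mul, mul_inv_cancel, SlashAction.slash_one] at h2

/-- pointwise: `(F ∣[k] g) z * denom g z ^ k = F (g • z)` -/
lemma slash_apply_mul_denom (F : ℍ → ℂ) (k : ℤ) (g : SL(2, ℤ)) (z : ℍ) :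
    (F ∣[k] g) z * denom g z ^ k = F (g • z) := by
  rw [SL_slash_apply, mul_assoc, ← zpow_add₀ (denom_ne_zero g z), neg_add_cancel, zpow_zero,
    mul_one]

/-- **the ratio** `h_χ = E_{k,χ} / E_{k,1}` in `Mer` -/
def hRatio (hχ : IsAdm χ) {k : ℤ} (hk : 3 ≤ k) : Mer :=
  algebraMap Hol Mer (echiHol hχ hk) / algebraMap Hol Mer (echiHol (isAdm_one (N := N)) hk)

lemma hRatio_ne_zero (hχ : IsAdm χ) {k : ℤ} (hk : 3 ≤ k) (hk2 : Even k) :
    hRatio hχ hk ≠ 0 :=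
  div_ne_zero (algebraMap_ne_zero (echiHol_ne_zero hχ hk hk2))
    (algebraMap_ne_zero (echiHol_ne_zero isAdm_one hk hk2))

/-- translates at an arbitrary cusp: `h_χ ∘ g = (E_{k,χ} ∣ g) / (E_{k,1} ∣ g)` -/
theorem compM_hRatio_eq_div (hχ : IsAdm χ) {k : ℤ} (hk : 3 ≤ k) (hk2 : Even k) (g : SL(2, ℤ)) :
    compM g (hRatio hχ hk) =
      algebraMap Hol Mer (slashHol hχ hk g) /
        algebraMap Hol Mer (slashHol (isAdm_one (N := N)) hk g) := by
  unfold hRatio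
  rw [compM_div, div_eq_div_iff (algebraMap_ne_zero (compSL_ne_zero g (echiHol_ne_zero isAdm_one hk hk2)))
    (algebraMap_ne_zero (slashHol_ne_zero isAdm_one hk hk2 g)), ← map_mul, ← map_mul]
  congr 1
  apply Subtype.ext
  funext z
  show Echi χ k (g • z) * (Echi (1 : ↥(Gamma0 N) →* ℂˣ) k ∣[k] g) z =
    (Echi χ k ∣[k] g) z * Echi (1 : ↥(Gamma0 N) →* ℂˣ) k (g • z)
  rw [← slash_apply_mul_denom (Echi χ k) k g z,
    ← slash_apply_mul_denom (Echi (1 : ↥(Gamma0 N) →* ℂˣ) k) k g z]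
  ring

/-- **transformation law**: `h_χ ∘ γ = χ(γ) h_χ` for `γ ∈ Γ₀(N)` -/
theorem compM_hRatio (hχ : IsAdm χ) {k : ℤ} (hk : 3 ≤ k) (hk2 : Even k) (γ : ↥(Gamma0 N)) :
    compM (γ : SL(2, ℤ)) (hRatio hχ hk) =
      algebraMap ℂ Mer ((χ γ : ℂˣ) : ℂ) * hRatio hχ hk := by
  have h1 : echiHol (isAdm_one (N := N)) hk ≠ 0 := echiHol_ne_zero isAdm_one hk hk2
  unfold hRatio
  rw [compM_div, IsScalarTower.algebraMap_apply ℂ Hol Mer, mul_div_assoc', ← map_mul,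
    div_eq_div_iff (algebraMap_ne_zero (compSL_ne_zero _ h1)) (algebraMap_ne_zero h1),
    ← map_mul, ← map_mul]
  congr 1
  apply Subtype.ext
  funext z
  show Echi χ k ((γ : SL(2, ℤ)) • z) * Echi (1 : ↥(Gamma0 N) →* ℂˣ) k z =
    ((χ γ : ℂˣ) : ℂ) * Echi χ k z * Echi (1 : ↥(Gamma0 N) →* ℂˣ) k ((γ : SL(2, ℤ)) • z)
  rw [Echi_smul hχ.par k γ z, Echi_smul (isAdm_one (N := N)).par k γ z]
  simp only [MonoidHom.one_apply, Units.val_one, one_mul]
  ring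

/-- `h_χ^p` is `Γ₀(N)`-invariant when `χ^p = 1` -/
theorem compM_hRatio_pow (hχ : IsAdm χ) {k : ℤ} (hk : 3 ≤ k) (hk2 : Even k) {p : ℕ}
    (hp : ∀ γ, χ γ ^ p = 1) (γ : ↥(Gamma0 N)) :
    compM (γ : SL(2, ℤ)) (hRatio hχ hk ^ p) = hRatio hχ hk ^ p := by
  rw [map_pow, compM_hRatio hχ hk hk2 γ, mul_pow, ← map_pow]
  have : ((χ γ : ℂˣ) : ℂ) ^ p = 1 := by
    rw [← Units.val_pow_eq_pow_val, hp γ, Units.val_one]
  rw [this, map_one, one_mul]

end

end Fermat.Agent.GJ.EisChar
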