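/-
GATE-J / J2-EIS (helper63): `E_{k,1}` and the powers `E_{k,χ}^p` (`χ^p = 1`) as modular forms on
`Γ₀(N)` (`S23.IsMF (S23.G0 N)`), the input shape of DICT-5 / J2-AUTO (`A / B ∈ realizeC (FC N)`).
-/
import Fermat.Agent.GJ.EisChar.Ratio

set_option autoImplicit false

open Complex UpperHalfPlane Set Filter Topology Matrix ModularForm EisensteinSeries
  CongruenceSubgroup ModularGroup
open scoped MatrixGroups Manifold

namespace Fermat.Agent.GJ.EisChar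

open Fermat.Agent.GJ.TwEis Fermat.Agent.S24_helper82 Fermat.Agent.S23

noncomputable section

variable {N : ℕ} {χ : ↥(Gamma0 N) →* ℂˣ}

/-- slash of a power (for `SL(2,ℤ)`) -/
lemma pow_slash_SL (F : ℍ → ℂ) (k : ℤ) (p : ℕ) (g : SL(2, ℤ)) :
    (F ^ p) ∣[k * p] g = (F ∣[k] g) ^ p := by
  induction p with
  | zero =>
    simp only [pow_zero, Nat.cast_zero, mul_zero]
    exact ModularForm.is_invariant_one g
  | succ n ih =>
    have hk : k * ((n + 1 : ℕ) : ℤ) = k * n + k := by push_cast; ring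
    rw [pow_succ, pow_succ, hk, ModularForm.mul_slash_SL2, ih]

/-- `E_{k,χ}^p ∣[kp] γ = E_{k,χ}^p` for `γ ∈ Γ₀(N)` when `χ^p = 1` -/
lemma Echi_pow_slash (hχ : IsAdm χ) (k : ℤ) {p : ℕ} (hp : ∀ γ, χ γ ^ p = 1) (γ : ↥(Gamma0 N)) :
    (Echi χ k ^ p) ∣[k * p] (γ : SL(2, ℤ)) = Echi χ k ^ p := by
  rw [pow_slash_SL, Echi_slash hχ.par k γ, smul_pow]
  have : ((χ γ : ℂˣ) : ℂ) ^ p = 1 := by
    rw [← Units.val_pow_eq_pow_val, hp γ, Units.val_one]
  rw [this, one_smul]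

/-- all translates of `E_{k,χ}^p` are bounded at `i∞` -/
lemma isBoundedAtImInfty_Echi_pow_slash (hχ : IsAdm χ) {k : ℤ} (hk : 3 ≤ k) (p : ℕ)
    (g : SL(2, ℤ)) : IsBoundedAtImInfty ((Echi χ k ^ p) ∣[k * p] g) := by
  rw [pow_slash_SL]
  have h := isBoundedAtImInfty_Echi_slash hχ.unit hk g
  induction p with
  | zero =>
    simp only [pow_zero]
    exact Filter.const_boundedAtFilter _ (1 : ℂ)
  | succ n ih =>
    rw [pow_succ]
    exact ih.mul h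

/-- **`E_{k,χ}^p` is a modular form of weight `kp` on `Γ₀(N)` when `χ^p = 1`** -/
def echiPowMF [NeZero N] (hχ : IsAdm χ) {k : ℤ} (hk : 3 ≤ k) {p : ℕ} (hp : ∀ γ, χ γ ^ p = 1) :
    ModularForm (G0 N) (k * p) where
  toFun := Echi χ k ^ p
  slash_action_eq' A hA := by
    obtain ⟨A, hA, rfl⟩ := hA
    exact Echi_pow_slash hχ k hp ⟨A, hA⟩
  holo' := by
    have h : MDifferentiable 𝓘(ℂ) 𝓘(ℂ) (Echi χ k) := mdifferentiable_Echi hχ.unit hk
    exact h.pow p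
  bdd_at_cusps' {c} hc := by
    rw [Subgroup.IsArithmetic.isCusp_iff_isCusp_SL2Z] at hc
    rw [OnePoint.isBoundedAt_iff_forall_SL2Z hc]
    exact fun γ _ ↦ isBoundedAtImInfty_Echi_pow_slash hχ hk p γ

@[simp] lemma coe_echiPowMF [NeZero N] (hχ : IsAdm χ) {k : ℤ} (hk : 3 ≤ k) {p : ℕ} (hp : ∀ γ, χ γ ^ p = 1) :
    ((echiPowMF hχ hk hp : ModularForm (G0 N) (k * p)) : ℍ → ℂ) = Echi χ k ^ p := rfl

theorem isMF_Echi_pow [NeZero N] (hχ : IsAdm χ) {k : ℤ} (hk : 3 ≤ k) {p : ℕ} (hp : ∀ γ, χ γ ^ p = 1) :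
    IsMF (G0 N) (k * p) (Echi χ k ^ p) := ⟨echiPowMF hχ hk hp, rfl⟩

/-- the level `N` Eisenstein series `E_{k,1}` is a modular form of weight `k` on `Γ₀(N)` -/
theorem isMF_Echi_one [NeZero N] {k : ℤ} (hk : 3 ≤ k) :
    IsMF (G0 N) k (Echi (1 : ↥(Gamma0 N) →* ℂˣ) k) := by
  have h := isMF_Echi_pow (isAdm_one (N := N)) hk (p := 1) (fun _ => by simp)
  simpa using h

end

end Fermat.Agent.GJ.EisChar
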