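/-
GATE-J / J2-EIS (helper63): weighted Eisenstein sums
  `wEis ψ k z = ∑_{v ∈ ℤ²} ψ(v) (v₀ z + v₁)^(-k)`  for a bounded weight `ψ : ℤ² → ℂ`.
Generic analytic facts (summability, slash action by `SL(2,ℤ)`, holomorphy, boundedness at `i∞`,
limit at `i∞`).  Mathlib only.
-/
import Mathlib

set_option autoImplicit false

open UpperHalfPlane ModularForm EisensteinSeries Matrix Filter Topology
open scoped MatrixGroups Manifold

noncomputable section

namespace Fermat.Agent.GJ.EisChar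

/-- the weighted Eisenstein sum `∑_v ψ(v) (v₀ z + v₁)^(-k)` -/
def wEis (ψ : (Fin 2 → ℤ) → ℂ) (k : ℤ) (z : ℍ) : ℂ :=
  ∑' v : Fin 2 → ℤ, ψ v * eisSummand k v z

/-- the weight is bounded by `1` -/
def IsBddWeight (ψ : (Fin 2 → ℤ) → ℂ) : Prop := ∀ v, ‖ψ v‖ ≤ 1

lemma IsBddWeight.comp_vecMul {ψ : (Fin 2 → ℤ) → ℂ} (hψ : IsBddWeight ψ) (g : SL(2, ℤ)) :
    IsBddWeight (fun v => ψ (v ᵥ* g)) := fun _ => hψ _

lemma norm_term_le {ψ : (Fin 2 → ℤ) → ℂ} (hψ : IsBddWeight ψ) (k : ℤ) (v : Fin 2 → ℤ) (z : ℍ) :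
    ‖ψ v * eisSummand k v z‖ ≤ ‖eisSummand k v z‖ := by
  rw [norm_mul]
  exact mul_le_of_le_one_left (norm_nonneg _) (hψ v)

lemma summable_norm_term {ψ : (Fin 2 → ℤ) → ℂ} (hψ : IsBddWeight ψ) {k : ℤ} (hk : 3 ≤ k) (z : ℍ) :
    Summable fun v : Fin 2 → ℤ => ‖ψ v * eisSummand k v z‖ :=
  (summable_norm_eisSummand hk z).of_nonneg_of_le (fun _ => norm_nonneg _)
    (fun v => norm_term_le hψ k v z)

lemma summable_term {ψ : (Fin 2 → ℤ) → ℂ} (hψ : IsBddWeight ψ) {k : ℤ} (hk : 3 ≤ k) (z : ℍ) :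
    Summable fun v : Fin 2 → ℤ => ψ v * eisSummand k v z :=
  (summable_norm_term hψ hk z).of_norm

/-- right multiplication by `g ∈ SL(2,ℤ)` as a permutation of `ℤ²` -/
def vecMulEquiv (g : SL(2, ℤ)) : (Fin 2 → ℤ) ≃ (Fin 2 → ℤ) where
  toFun v := v ᵥ* g
  invFun v := v ᵥ* ↑(g⁻¹)
  left_inv v := by
    simp only [vecMul_vecMul, ← Matrix.SpecialLinearGroup.coe_mul, mul_inv_cancel,
      Matrix.SpecialLinearGroup.coe_one, vecMul_one]
  right_inv v := by
    simp only [vecMul_vecMul, ← Matrix.SpecialLinearGroup.coe_mul, inv_mul_cancel,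
      Matrix.SpecialLinearGroup.coe_one, vecMul_one]

@[simp] lemma vecMulEquiv_apply (g : SL(2, ℤ)) (v : Fin 2 → ℤ) :
    vecMulEquiv g v = v ᵥ* g := rfl

@[simp] lemma vecMulEquiv_symm_apply (g : SL(2, ℤ)) (v : Fin 2 → ℤ) :
    (vecMulEquiv g).symm v = v ᵥ* ↑(g⁻¹) := rfl

/-- the slash action of `SL(2,ℤ)` on weighted Eisenstein sums: it transports the weight -/
theorem wEis_slash (ψ : (Fin 2 → ℤ) → ℂ) (k : ℤ) (g : SL(2, ℤ)) :
    wEis ψ k ∣[k] g =
      wEis (fun v => ψ (v ᵥ* ↑(g⁻¹))) k := by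
  ext1 z
  have hre : ∑' u : Fin 2 → ℤ, ψ (u ᵥ* ↑(g⁻¹)) * eisSummand k u z =
      ∑' v : Fin 2 → ℤ, ψ v * eisSummand k (v ᵥ* g) z := by
    rw [← (vecMulEquiv g).tsum_eq]
    refine tsum_congr fun v => ?_
    simp only [vecMulEquiv_apply, vecMul_vecMul, ← Matrix.SpecialLinearGroup.coe_mul,
      mul_inv_cancel, Matrix.SpecialLinearGroup.coe_one, vecMul_one]
  simp_rw [SL_slash_apply, _root_.zpow_neg,
    mul_inv_eq_iff_eq_mul₀ (zpow_ne_zero _ <| denom_ne_zero _ z), wEis, eisSummand_SL2_apply]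
  rw [hre, ← tsum_mul_right]
  refine tsum_congr fun v => ?_
  ring


/-! ### Majorants and their invariance under translations -/

/-- the absolute majorant `∑_v w(v) |v₀ z + v₁|^(-k)` for a `0/1`-valued weight given by a set -/
def nEis (S : Set (Fin 2 → ℤ)) (k : ℤ) (z : ℍ) : ℝ :=
  ∑' v : Fin 2 → ℤ, S.indicator (fun v => ‖eisSummand k v z‖) v

lemma summable_nEis (S : Set (Fin 2 → ℤ)) {k : ℤ} (hk : 3 ≤ k) (z : ℍ) :
    Summable fun v : Fin 2 → ℤ => S.indicator (fun v => ‖eisSummand k v z‖) v :=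
  (summable_norm_eisSummand hk z).indicator S

lemma nEis_nonneg (S : Set (Fin 2 → ℤ)) (k : ℤ) (z : ℍ) : 0 ≤ nEis S k z :=
  tsum_nonneg fun v => Set.indicator_nonneg (fun _ _ => norm_nonneg _) v

lemma denom_T_zpow (n : ℤ) (z : ℍ) : denom (ModularGroup.T ^ n : SL(2, ℤ)) z = 1 := by
  rw [ModularGroup.denom_apply, ModularGroup.coe_T_zpow]
  simp

/-- `nEis S` is invariant under integer translations when `S` is stable under `v ↦ v T^n` -/
lemma nEis_T_zpow_smul (S : Set (Fin 2 → ℤ)) (k : ℤ) (n : ℤ)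
    (hS : ∀ v, v ᵥ* (ModularGroup.T ^ n : SL(2, ℤ)) ∈ S ↔ v ∈ S) (z : ℍ) :
    nEis S k ((ModularGroup.T ^ n : SL(2, ℤ)) • z) = nEis S k z := by
  unfold nEis
  rw [← (vecMulEquiv (ModularGroup.T ^ n)).tsum_eq
    (fun v => S.indicator (fun v => ‖eisSummand k v z‖) v)]
  refine tsum_congr fun v => ?_
  by_cases hv : v ∈ S
  · have hv' : vecMulEquiv (ModularGroup.T ^ n) v ∈ S := (hS v).mpr hv
    rw [Set.indicator_of_mem hv, Set.indicator_of_mem hv', eisSummand_SL2_apply, denom_T_zpow,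
      _root_.one_zpow, one_mul]
    rfl
  · have hv' : vecMulEquiv (ModularGroup.T ^ n) v ∉ S := fun h => hv ((hS v).mp h)
    rw [Set.indicator_of_notMem hv, Set.indicator_of_notMem hv']

lemma norm_wEis_le {ψ : (Fin 2 → ℤ) → ℂ} (hψ : IsBddWeight ψ) {k : ℤ} (hk : 3 ≤ k) (z : ℍ) :
    ‖wEis ψ k z‖ ≤ nEis Set.univ k z := by
  unfold wEis nEis
  refine (norm_tsum_le_tsum_norm (summable_norm_term hψ hk z)).trans ?_
  refine (summable_norm_term hψ hk z).tsum_le_tsum (fun v => ?_) (summable_nEis _ hk z)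
  rw [Set.indicator_of_mem (Set.mem_univ v)]
  exact norm_term_le hψ k v z

/-- uniform bound of the majorant on `{Im z ≥ 1}` -/
lemma nEis_le_of_one_le_im (S : Set (Fin 2 → ℤ)) {k : ℤ} (hk : 3 ≤ k) (z : ℍ) (hz : 1 ≤ z.im) :
    nEis S k z ≤ ∑' x : Fin 2 → ℤ, r ⟨⟨1, 1⟩, one_pos⟩ ^ (-k) * ‖x‖ ^ (-k) := by
  have hk' : (2 : ℝ) < k := by norm_cast
  obtain ⟨n, hn⟩ := ModularGroup_T_zpow_mem_verticalStrip z (N := 1) one_pos
  rw [Nat.cast_one] at hn
  have hle : nEis S k z ≤ nEis Set.univ k z := by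
    unfold nEis
    refine (summable_nEis S hk z).tsum_le_tsum (fun v => ?_) (summable_nEis _ hk z)
    rw [Set.indicator_of_mem (Set.mem_univ v)]
    exact Set.indicator_le_self' (fun _ _ => norm_nonneg _) v
  refine hle.trans ?_
  rw [← nEis_T_zpow_smul Set.univ k (1 * n) (fun v => by simp) z]
  unfold nEis
  refine (summable_nEis _ hk _).tsum_le_tsum (fun v => ?_) ?_
  · rw [Set.indicator_of_mem (Set.mem_univ v)]
    simp_rw [eisSummand, norm_zpow]
    exact_mod_cast summand_bound_of_mem_verticalStrip (lt_trans two_pos hk').le v one_pos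
      (verticalStrip_anti_right 1 hz hn)
  · exact_mod_cast (summable_one_div_norm_rpow hk').mul_left <| r ⟨⟨1, 1⟩, one_pos⟩ ^ (-k)

/-- weighted Eisenstein sums are bounded at `i∞` -/
theorem isBoundedAtImInfty_wEis {ψ : (Fin 2 → ℤ) → ℂ} (hψ : IsBddWeight ψ) {k : ℤ} (hk : 3 ≤ k) :
    IsBoundedAtImInfty (wEis ψ k) := by
  rw [UpperHalfPlane.isBoundedAtImInfty_iff]
  exact ⟨_, 1, fun z hz => (norm_wEis_le hψ hk z).trans (nEis_le_of_one_le_im _ hk z hz)⟩


/-! ### Holomorphy -/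

theorem wEis_tendstoLocallyUniformly {ψ : (Fin 2 → ℤ) → ℂ} (hψ : IsBddWeight ψ) {k : ℤ}
    (hk : 3 ≤ k) :
    TendstoLocallyUniformly (fun (s : Finset (Fin 2 → ℤ)) ↦ (∑ x ∈ s, ψ x * eisSummand k x ·))
      (wEis ψ k ·) Filter.atTop := by
  have hk' : (2 : ℝ) < k := by norm_cast
  have p_sum : Summable fun x : Fin 2 → ℤ ↦ ‖x‖ ^ (-k) :=
    mod_cast (summable_one_div_norm_rpow hk')
  simp only [tendstoLocallyUniformly_iff_forall_isCompact, wEis]
  intro K hK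
  obtain ⟨A, B, hB, HABK⟩ := subset_verticalStrip_of_isCompact hK
  refine (tendstoUniformlyOn_tsum (hu := p_sum.mul_left <| r ⟨⟨A, B⟩, hB⟩ ^ (-k : ℝ))
    (fun p z hz ↦ ?_)).mono HABK
  refine (norm_term_le hψ k p z).trans ?_
  simpa only [eisSummand, one_div, ← _root_.zpow_neg, norm_zpow, ← Real.rpow_intCast,
    Int.cast_neg] using summand_bound_of_mem_verticalStrip (by positivity) p hB hz

lemma wEis_tendstoLocallyUniformlyOn {ψ : (Fin 2 → ℤ) → ℂ} (hψ : IsBddWeight ψ) {k : ℤ}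
    (hk : 3 ≤ k) :
    TendstoLocallyUniformlyOn (fun (s : Finset (Fin 2 → ℤ)) ↦
      ↑ₕ(fun (z : ℍ) ↦ ∑ x ∈ s, ψ x * eisSummand k x z)) (↑ₕ(wEis ψ k))
          Filter.atTop {z : ℂ | 0 < z.im} := by
  rw [← upperHalfPlaneSet, ← range_coe, ← Set.image_univ]
  apply TendstoLocallyUniformlyOn.comp (s := ⊤) _ _ _ (OpenPartialHomeomorph.continuousOn_symm _)
  · simp only [Set.top_eq_univ, tendstoLocallyUniformlyOn_univ]
    apply wEis_tendstoLocallyUniformly hψ hk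
  · simp only [IsOpenEmbedding.toOpenPartialHomeomorph_target, Set.top_eq_univ,
      Set.mapsTo_range_iff, Set.mem_univ, forall_const]

/-- weighted Eisenstein sums are holomorphic on `ℍ` -/
theorem mdifferentiable_wEis {ψ : (Fin 2 → ℤ) → ℂ} (hψ : IsBddWeight ψ) {k : ℤ} (hk : 3 ≤ k) :
    MDiff (wEis ψ k) := by
  intro τ
  suffices DifferentiableAt ℂ (↑ₕ(wEis ψ k)) τ.1 by
    convert!
      MDifferentiableAt.comp τ (DifferentiableAt.mdifferentiableAt this) τ.mdifferentiable_coe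
    exact funext fun z ↦ (comp_ofComplex (wEis ψ k) z).symm
  refine DifferentiableOn.differentiableAt ?_ (isOpen_upperHalfPlaneSet.mem_nhds τ.2)
  refine (wEis_tendstoLocallyUniformlyOn hψ hk).differentiableOn
    (Eventually.of_forall fun s ↦ DifferentiableOn.fun_sum fun v _ ↦ ?_) isOpen_upperHalfPlaneSet
  have h1 := (eisSummand_extension_differentiableOn k v).const_smul (ψ v)
  refine h1.congr fun z hz => ?_
  lift z to ℍ using hz
  simp only [Function.comp_apply, ofComplex_apply, Pi.smul_apply, smul_eq_mul]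

end Fermat.Agent.GJ.EisChar
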