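/-
GATE-J / J2-EIS (helper63): the limit of a weighted Eisenstein sum at `i∞`.
-/
import Fermat.Agent.GJ.EisChar.Weighted

set_option autoImplicit false

open UpperHalfPlane ModularForm EisensteinSeries Matrix Filter Topology
open scoped MatrixGroups Manifold

noncomputable section

namespace Fermat.Agent.GJ.EisChar

/-- vectors with nonzero first coordinate -/
def offAxis : Set (Fin 2 → ℤ) := {v | v 0 ≠ 0}

lemma vecMul_T_zpow_zero (v : Fin 2 → ℤ) (n : ℤ) :
    (v ᵥ* ((ModularGroup.T ^ n : SL(2, ℤ)) : Matrix (Fin 2) (Fin 2) ℤ)) 0 = v 0 := by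
  rw [ModularGroup.coe_T_zpow]
  simp [vecMul, vecHead]

lemma mem_offAxis_vecMul_T_zpow (n : ℤ) (v : Fin 2 → ℤ) :
    v ᵥ* ((ModularGroup.T ^ n : SL(2, ℤ)) : Matrix (Fin 2) (Fin 2) ℤ) ∈ offAxis ↔ v ∈ offAxis := by
  show (v ᵥ* ((ModularGroup.T ^ n : SL(2, ℤ)) : Matrix (Fin 2) (Fin 2) ℤ)) 0 ≠ 0 ↔ v 0 ≠ 0
  rw [vecMul_T_zpow_zero]

/-- a single off-axis term tends to `0` at `i∞` -/
lemma tendsto_norm_eisSummand_offAxis {k : ℤ} (hk : 1 ≤ k) {v : Fin 2 → ℤ} (hv : v ∈ offAxis) :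
    Tendsto (fun z : ℍ => ‖eisSummand k v z‖) atImInfty (𝓝 0) := by
  have hv0 : (1 : ℝ) ≤ |(v 0 : ℝ)| := by
    have : (1 : ℤ) ≤ |v 0| := Int.one_le_abs hv
    exact_mod_cast this
  -- `‖eisSummand‖ ≤ (im z)⁻¹` for `im z ≥ 1`
  have hbound : ∀ᶠ z : ℍ in atImInfty, ‖eisSummand k v z‖ ≤ (z.im)⁻¹ := by
    rw [Filter.Eventually, atImInfty_mem]
    refine ⟨1, fun z hz => ?_⟩
    have him : z.im ≤ ‖(v 0 : ℂ) * (z : ℂ) + v 1‖ := by
      have h1 : |((v 0 : ℂ) * (z : ℂ) + v 1).im| ≤ ‖(v 0 : ℂ) * (z : ℂ) + v 1‖ :=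
        Complex.abs_im_le_norm _
      have h2 : ((v 0 : ℂ) * (z : ℂ) + v 1).im = (v 0 : ℝ) * z.im := by
        simp [Complex.add_im, Complex.mul_im]
      rw [h2, abs_mul, abs_of_pos z.im_pos] at h1
      calc z.im = 1 * z.im := (one_mul _).symm
        _ ≤ |(v 0 : ℝ)| * z.im := by gcongr
        _ ≤ _ := h1
    have hpos : 0 < z.im := z.im_pos
    have hone : (1 : ℝ) ≤ ‖(v 0 : ℂ) * (z : ℂ) + v 1‖ := hz.trans him
    show ‖eisSummand k v z‖ ≤ (z.im)⁻¹
    simp only [eisSummand, _root_.zpow_neg, norm_inv, norm_zpow]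
    rw [inv_le_inv₀ (zpow_pos (lt_of_lt_of_le one_pos hone) _) hpos]
    calc z.im ≤ ‖(v 0 : ℂ) * (z : ℂ) + v 1‖ := him
      _ = ‖(v 0 : ℂ) * (z : ℂ) + v 1‖ ^ (1 : ℤ) := (zpow_one _).symm
      _ ≤ ‖(v 0 : ℂ) * (z : ℂ) + v 1‖ ^ k := zpow_le_zpow_right₀ hone hk
  have hinv : Tendsto (fun z : ℍ => (z.im)⁻¹) atImInfty (𝓝 0) :=
    tendsto_inv_atTop_zero.comp tendsto_comap
  exact squeeze_zero' (Eventually.of_forall fun _ => norm_nonneg _) hbound hinv

/-- the off-axis majorant tends to `0` at `i∞` -/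
theorem tendsto_nEis_offAxis {k : ℤ} (hk : 3 ≤ k) :
    Tendsto (nEis offAxis k) atImInfty (𝓝 0) := by
  have hk' : (2 : ℝ) < k := by norm_cast
  -- dominated convergence on the strip
  have hstrip : Tendsto (nEis offAxis k) (atImInfty ⊓ 𝓟 (verticalStrip 1 1)) (𝓝 0) := by
    have h0 : (0 : ℝ) = ∑' _v : Fin 2 → ℤ, (0 : ℝ) := by simp
    rw [h0]
    unfold nEis
    refine tendsto_tsum_of_dominated_convergence
      (bound := fun x : Fin 2 → ℤ => r ⟨⟨1, 1⟩, one_pos⟩ ^ (-k) * ‖x‖ ^ (-k)) ?_ ?_ ?_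
    · exact_mod_cast (summable_one_div_norm_rpow hk').mul_left <| r ⟨⟨1, 1⟩, one_pos⟩ ^ (-k)
    · intro v
      by_cases hv : v ∈ offAxis
      · simp only [Set.indicator_of_mem hv]
        exact (tendsto_norm_eisSummand_offAxis (by omega) hv).mono_left inf_le_left
      · simp only [Set.indicator_of_notMem hv]
        exact tendsto_const_nhds
    · have : verticalStrip 1 1 ∈ atImInfty ⊓ 𝓟 (verticalStrip 1 1) :=
        mem_inf_of_right (mem_principal_self _)
      filter_upwards [this] with z hz v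
      rw [Real.norm_of_nonneg (Set.indicator_nonneg (fun _ _ => norm_nonneg _) v)]
      refine (Set.indicator_le_self' (fun _ _ => norm_nonneg _) v).trans ?_
      simp_rw [eisSummand, norm_zpow]
      exact_mod_cast summand_bound_of_mem_verticalStrip (lt_trans two_pos hk').le v one_pos hz
  rw [Metric.tendsto_nhds]
  intro ε hε
  have h1 := (Metric.tendsto_nhds.mp hstrip) ε hε
  rw [Filter.Eventually, mem_inf_principal, atImInfty_mem] at h1
  obtain ⟨A, hA⟩ := h1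
  rw [Filter.Eventually, atImInfty_mem]
  refine ⟨max A 1, fun z hz => ?_⟩
  obtain ⟨n, hn⟩ := ModularGroup_T_zpow_mem_verticalStrip z (N := 1) one_pos
  rw [Nat.cast_one] at hn
  have hz1 : (1 : ℝ) ≤ z.im := (le_max_right _ _).trans hz
  have hzA : A ≤ z.im := (le_max_left _ _).trans hz
  have hmem : (ModularGroup.T ^ (1 * n) : SL(2, ℤ)) • z ∈ verticalStrip 1 1 :=
    verticalStrip_anti_right 1 hz1 hn
  have him : ((ModularGroup.T ^ (1 * n) : SL(2, ℤ)) • z).im = z.im :=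
    ModularGroup.im_T_zpow_smul z (1 * n)
  have : dist (nEis offAxis k ((ModularGroup.T ^ (1 * n) : SL(2, ℤ)) • z)) 0 < ε :=
    hA ((ModularGroup.T ^ (1 * n) : SL(2, ℤ)) • z) (by rw [him]; exact hzA) hmem
  show dist (nEis offAxis k z) 0 < ε
  rwa [nEis_T_zpow_smul offAxis k (1 * n) (mem_offAxis_vecMul_T_zpow _) z] at this


lemma neg_one_zpow_neg_eq (k : ℤ) : (-1 : ℂ) ^ (-k) = (-1 : ℂ) ^ k := by
  rcases Int.even_or_odd k with h | h
  · rw [h.neg_one_zpow, h.neg.neg_one_zpow]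
  · rw [h.neg_one_zpow, h.neg.neg_one_zpow]

lemma eisSummand_zero_one (k : ℤ) (z : ℍ) : eisSummand k ![0, 1] z = 1 := by
  simp [eisSummand]

lemma eisSummand_zero_neg_one (k : ℤ) (z : ℍ) : eisSummand k ![0, -1] z = (-1 : ℂ) ^ k := by
  simp only [eisSummand, Matrix.cons_val_zero, Matrix.cons_val_one, Int.cast_zero, zero_mul,
    zero_add, Int.cast_neg, Int.cast_one]
  exact neg_one_zpow_neg_eq k

/-- the on-axis part of a weighted Eisenstein sum whose weight is supported (on the axis) at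
`(0, ±1)` -/
lemma tsum_onAxis {ψ : (Fin 2 → ℤ) → ℂ} (k : ℤ) (z : ℍ)
    (h0 : ∀ n : ℤ, n ≠ 1 → n ≠ -1 → ψ ![0, n] = 0) :
    ∑' v : Fin 2 → ℤ, offAxisᶜ.indicator (fun v => ψ v * eisSummand k v z) v =
      ψ ![0, 1] + (-1 : ℂ) ^ k * ψ ![0, -1] := by
  have hne : (![0, 1] : Fin 2 → ℤ) ≠ ![0, -1] := by
    intro h
    have := congrFun h 1
    simp at this
  rw [tsum_eq_sum (s := {![0, 1], ![0, -1]})]
  · rw [Finset.sum_pair hne]
    have h1 : (![0, 1] : Fin 2 → ℤ) ∈ offAxisᶜ := by simp [offAxis]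
    have h2 : (![0, -1] : Fin 2 → ℤ) ∈ offAxisᶜ := by simp [offAxis]
    rw [Set.indicator_of_mem h1, Set.indicator_of_mem h2, eisSummand_zero_one,
      eisSummand_zero_neg_one]
    ring
  · intro v hv
    simp only [Finset.mem_insert, Finset.mem_singleton, not_or] at hv
    by_cases hvs : v ∈ offAxisᶜ
    · rw [Set.indicator_of_mem hvs]
      have hv0 : v 0 = 0 := by simpa [offAxis] using hvs
      have hveq : v = ![0, v 1] := by
        ext i; fin_cases i
        · simpa using hv0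
        · simp
      have : ψ v = 0 := by
        rw [hveq]
        apply h0
        · intro h; apply hv.1; rw [hveq, h]
        · intro h; apply hv.2; rw [hveq, h]
      rw [this, zero_mul]
    · rw [Set.indicator_of_notMem hvs]

/-- the limit at `i∞` of a weighted Eisenstein sum whose weight vanishes at `(0, n)`, `n ≠ ±1` -/
theorem tendsto_wEis {ψ : (Fin 2 → ℤ) → ℂ} (hψ : IsBddWeight ψ) {k : ℤ} (hk : 3 ≤ k)
    (h0 : ∀ n : ℤ, n ≠ 1 → n ≠ -1 → ψ ![0, n] = 0) :
    Tendsto (wEis ψ k) atImInfty (𝓝 (ψ ![0, 1] + (-1 : ℂ) ^ k * ψ ![0, -1])) := by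
  rw [tendsto_iff_norm_sub_tendsto_zero]
  refine squeeze_zero (fun _ => norm_nonneg _) (fun z => ?_) (tendsto_nEis_offAxis hk)
  have hsum := summable_term hψ hk z
  have hsplit : wEis ψ k z =
      (∑' v : Fin 2 → ℤ, offAxisᶜ.indicator (fun v => ψ v * eisSummand k v z) v) +
      ∑' v : Fin 2 → ℤ, offAxis.indicator (fun v => ψ v * eisSummand k v z) v := by
    unfold wEis
    rw [← tsum_subtype, ← tsum_subtype, add_comm]
    exact (hsum.tsum_subtype_add_tsum_subtype_compl offAxis).symm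
  rw [hsplit, tsum_onAxis k z h0, add_sub_cancel_left]
  unfold nEis
  have hsn : Summable fun v : Fin 2 → ℤ =>
      ‖offAxis.indicator (fun v => ψ v * eisSummand k v z) v‖ := by
    refine (summable_nEis offAxis hk z).of_nonneg_of_le (fun _ => norm_nonneg _) fun v => ?_
    by_cases hv : v ∈ offAxis
    · rw [Set.indicator_of_mem hv, Set.indicator_of_mem hv]; exact norm_term_le hψ k v z
    · rw [Set.indicator_of_notMem hv, Set.indicator_of_notMem hv, norm_zero]
  refine (norm_tsum_le_tsum_norm hsn).trans ?_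
  refine hsn.tsum_le_tsum (fun v => ?_) (summable_nEis offAxis hk z)
  by_cases hv : v ∈ offAxis
  · rw [Set.indicator_of_mem hv, Set.indicator_of_mem hv]; exact norm_term_le hψ k v z
  · rw [Set.indicator_of_notMem hv, Set.indicator_of_notMem hv, norm_zero]

end Fermat.Agent.GJ.EisChar
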